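/-
S55 moonshot — frozen shared definitions: the tower of finite levels.
Chief architect: helper55.  Mathlib + Prelude only.  NO sorry.  FROZEN (additions go to new files).
Namespace `Fermat.Agent.S55.Tow`.

`G_ℚ = Gal(ℚ̄/ℚ)`; a *level* is a finite Galois `F/ℚ` inside `ℚ̄` unramified outside `S`;
`Gal(F/ℚ)` is modelled as the quotient `G_ℚ ⧸ F.fixingSubgroup`; the decomposition group at `q`
as the quotient of the Prelude local group `Gal(ℚ̄_q/ℚ_q)` by the preimage of `F.fixingSubgroup`;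
`F_qˣ` as the invariants of `ℚ̄_qˣ`; `∏_{w|q} F_wˣ` as a coinduced module.
-/
import Mathlib
import Fermat.Prelude.Def_GroupCohomology_ContinuousUnramified

open CategoryTheory

namespace Fermat.Agent.S55.Tow

noncomputable section

/-- `ℚ̄`. -/
abbrev Qbar : Type := AlgebraicClosure ℚ
/-- `G_ℚ`. -/
abbrev GQ : Type := Qbar ≃ₐ[ℚ] Qbar
/-- The Prelude local Galois group `Gal(ℚ̄_q/ℚ_q)`. -/
abbrev GQp (q : Nat.Primes) : Type := ExtCitation.primeLocalGaloisGroup q
/-- The Prelude map `Gal(ℚ̄_q/ℚ_q) → G_ℚ`. -/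
abbrev locQ (q : Nat.Primes) : GQp q →* GQ := ExtCitation.primeLocalToGlobal q

variable (S : Finset Nat.Primes)

/-- A level: a finite Galois extension `F/ℚ` inside `ℚ̄`, unramified outside `S`.
Galois-ness is recorded as normality of the subgroup `Gal(ℚ̄/F)` (equivalent by infinite Galois
theory; this form avoids the `Algebra ℚ F` instance diamond). -/
structure Level where
  /-- the field -/
  F : IntermediateField ℚ Qbar
  unram : F.IsUnramifiedOutside S
  normalU : (F.fixingSubgroup).Normal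

variable {S}

instance : Preorder (Level S) := Preorder.lift Level.F

/-- The open normal subgroup `U_F = Gal(ℚ̄/F)` of `G_ℚ`. -/
def Level.U (L : Level S) : Subgroup GQ := L.F.fixingSubgroup

instance Level.instNormalU (L : Level S) : (L.U).Normal := L.normalU

/-- `Gal(F/ℚ)`, as a quotient of `G_ℚ`. -/
abbrev Level.Gal (L : Level S) : Type := GQ ⧸ L.U

lemma Level.U_anti {L L' : Level S} (h : L ≤ L') : L'.U ≤ L.U :=
  IntermediateField.fixingSubgroup_antitone h

/-- The projection `Gal(F'/ℚ) → Gal(F/ℚ)` for `F ≤ F'`. -/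
def Level.proj {L L' : Level S} (h : L ≤ L') : L'.Gal →* L.Gal :=
  QuotientGroup.map L'.U L.U (MonoidHom.id GQ) (Level.U_anti h)

/-- `Gal(F'/F)` as a subgroup of `Gal(F'/ℚ)`. -/
def Level.relGal {L L' : Level S} (h : L ≤ L') : Subgroup L'.Gal := (Level.proj h).ker

/-- The open normal subgroup `Gal(ℚ̄_q/F_q)` of the local group (preimage of `U_F`). -/
def Level.V (L : Level S) (q : Nat.Primes) : Subgroup (GQp q) := L.U.comap (locQ q)

instance Level.normalV (L : Level S) (q : Nat.Primes) : (L.V q).Normal := by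
  unfold Level.V
  infer_instance

/-- The decomposition group `Gal(F_q/ℚ_q)`, as a quotient of the local group. -/
abbrev Level.Dec (L : Level S) (q : Nat.Primes) : Type := GQp q ⧸ L.V q

/-- The (injective) map `Gal(F_q/ℚ_q) → Gal(F/ℚ)`. -/
def Level.decHom (L : Level S) (q : Nat.Primes) : L.Dec q →* L.Gal :=
  QuotientGroup.map (L.V q) L.U (locQ q) le_rfl

/-- `ℚ̄ˣ` as a `G_ℚ`-module. -/
def unitsQbar : Rep.{0} ℤ GQ := Rep.ofAlgebraAutOnUnits ℚ Qbar

/-- `ℚ̄_qˣ` as a module over the local Galois group. -/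
def unitsQpbar (q : Nat.Primes) : Rep.{0} ℤ (GQp q) :=
  letI : Fact (q : ℕ).Prime := ⟨q.2⟩
  Rep.ofAlgebraAutOnUnits ℚ_[(q : ℕ)] (PadicAlgCl (q : ℕ))

/-- `Fˣ` as a `Gal(F/ℚ)`-module (the `U_F`-invariants of `ℚ̄ˣ`). -/
def Level.units (L : Level S) : Rep.{0} ℤ L.Gal := unitsQbar.quotientToInvariants L.U

/-- `F_qˣ` as a `Gal(F_q/ℚ_q)`-module (the invariants of `ℚ̄_qˣ`). -/
def Level.locUnits (L : Level S) (q : Nat.Primes) : Rep.{0} ℤ (L.Dec q) :=
  (unitsQpbar q).quotientToInvariants (L.V q)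

/-- `J_q(F) = ∏_{w | q} F_wˣ` as a `Gal(F/ℚ)`-module: coinduced from the decomposition group. -/
def Level.J (L : Level S) (q : Nat.Primes) : Rep.{0} ℤ L.Gal :=
  Rep.coind (L.decHom q) (L.locUnits q)

end

end Fermat.Agent.S55.Tow
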