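/-
S55 moonshot — frozen shared definitions, part 2: finiteness, transition maps, S-units,
diagonal embedding.  Chief architect: helper55.  NO sorry.  Namespace `Fermat.Agent.S55.Tow`.
-/
import Fermat.Agent.S55.Spec.Tower
import Fermat.Agent.S55.Bridge.Level

set_option autoImplicit false

open CategoryTheory

namespace Fermat.Agent.S55.Tow

noncomputable section

variable {S : Finset Nat.Primes}

/-- `q` is prime (instance for `q : Nat.Primes`). -/
instance factPrimes (q : Nat.Primes) : Fact (q : ℕ).Prime := ⟨q.2⟩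

/-! ## Finiteness -/

instance Level.finiteGal (L : Level S) : Finite L.Gal := by
  have : FiniteDimensional ℚ L.F := L.unram.1
  have hopen : IsOpen (L.F.fixingSubgroup : Set GQ) := IntermediateField.fixingSubgroup_isOpen L.F
  have := Fermat.Agent.S55.Bridge.isAlgebraic_Qbar
  have := Fermat.Agent.S55.Bridge.isGalois_Qbar
  exact Subgroup.quotient_finite_of_isOpen (L.F.fixingSubgroup) hopen

theorem Level.decHom_injective (L : Level S) (q : Nat.Primes) :
    Function.Injective (L.decHom q) := by
  rw [injective_iff_map_eq_one]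
  intro x
  induction x using QuotientGroup.induction_on with
  | H g =>
    intro h
    have h' : (QuotientGroup.mk (locQ q g) : L.Gal) = 1 := h
    rw [QuotientGroup.eq_one_iff] at h' ⊢
    exact h'

instance Level.finiteDec (L : Level S) (q : Nat.Primes) : Finite (L.Dec q) :=
  Finite.of_injective _ (L.decHom_injective q)

/-! ## Transition maps of groups -/

lemma Level.V_anti {L L' : Level S} (h : L ≤ L') (q : Nat.Primes) : L'.V q ≤ L.V q :=
  Subgroup.comap_mono (Level.U_anti h)

/-- The projection `Gal(F'_q/ℚ_q) → Gal(F_q/ℚ_q)` for `F ≤ F'`. -/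
def Level.projDec {L L' : Level S} (h : L ≤ L') (q : Nat.Primes) : L'.Dec q →* L.Dec q :=
  QuotientGroup.map (L'.V q) (L.V q) (MonoidHom.id (GQp q)) (Level.V_anti h q)

@[simp] lemma Level.proj_mk {L L' : Level S} (h : L ≤ L') (g : GQ) :
    Level.proj h (QuotientGroup.mk g) = QuotientGroup.mk g := rfl

@[simp] lemma Level.projDec_mk {L L' : Level S} (h : L ≤ L') (q : Nat.Primes) (g : GQp q) :
    Level.projDec h q (QuotientGroup.mk g) = QuotientGroup.mk g := rfl

@[simp] lemma Level.decHom_mk (L : Level S) (q : Nat.Primes) (g : GQp q) :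
    L.decHom q (QuotientGroup.mk g) = QuotientGroup.mk (locQ q g) := rfl

lemma Level.proj_decHom {L L' : Level S} (h : L ≤ L') (q : Nat.Primes) (d : L'.Dec q) :
    Level.proj h (L'.decHom q d) = L.decHom q (Level.projDec h q d) := by
  induction d using QuotientGroup.induction_on with
  | H g => rfl

/-! ## Underlying elements -/

/-- The element of `ℚ̄ˣ` underlying `x ∈ Fˣ`. -/
def Level.val (L : Level S) (x : L.units.V) : Qbarˣ := Additive.toMul x.1

/-- The element of `ℚ̄_qˣ` underlying `x ∈ F_qˣ`. -/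
def Level.locVal (L : Level S) (q : Nat.Primes) (x : (L.locUnits q).V) :
    (PadicAlgCl (q : ℕ))ˣ := Additive.toMul x.1

/-- `x ∈ Fˣ` is an `S`-unit: a unit at every place of `ℚ̄` over a prime `ℓ ∉ S`. -/
def Level.IsSUnit (L : Level S) (x : L.units.V) : Prop :=
  ∀ ℓ : Nat.Primes, ℓ ∉ S → ∀ A : ValuationSubring Qbar, A.LiesOverPrime (ℓ : ℕ) →
    ((L.val x : Qbarˣ) : Qbar) ∈ A ∧ (((L.val x)⁻¹ : Qbarˣ) : Qbar) ∈ A

end

end Fermat.Agent.S55.Tow
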