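/-
S55 moonshot — frozen shared definitions, part 3: maps in the tower.
Chief architect: helper55.  NO sorry.  Namespace `Fermat.Agent.S55.Tow`.

* `Level.unitsCoe`, `Level.locCoe`, `unitsMk`, `locMk` : underlying elements of `ℚ̄ˣ`, `ℚ̄_qˣ`;
* `embQbar`, `Level.emb q : Fˣ → F_qˣ` (Prelude `padicEmbedding`);
* `Level.trUnits h : Fˣ → F'ˣ`, `Level.trLoc h q : F_qˣ → F'_qˣ`, `Level.trJ h q : J_q(F) → J_q(F')`;
* `Level.diag q : Fˣ → J_q(F)`, `x ↦ (g ↦ emb (g x))`;
* `Level.ofLE : Level S → Level S'` for `S ⊆ S'`.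
-/
import Fermat.Agent.S55.Spec.Tower2

set_option autoImplicit false

open CategoryTheory

namespace Fermat.Agent.S55.Tow

noncomputable section

variable {S : Finset Nat.Primes}

/-- The embedding `ℚ̄ˣ → ℚ̄_qˣ` (additively written), induced by the Prelude `padicEmbedding`. -/
def embQbar (q : Nat.Primes) : unitsQbar.V →ₗ[ℤ] (unitsQpbar q).V :=
  (Units.map (padicEmbedding (q : ℕ)).toRingHom.toMonoidHom).toAdditive.toIntLinearMap

lemma embQbar_equivariant (q : Nat.Primes) (τ : GQp q) (x : unitsQbar.V) :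
    embQbar q (unitsQbar.ρ (locQ q τ) x) = (unitsQpbar q).ρ τ (embQbar q x) := by
  apply Additive.toMul.injective
  apply Units.ext
  exact padicEmbedding_localGaloisToGlobal (q : ℕ) τ _

/-- The underlying element of `ℚ̄ˣ` (additively written) of `x ∈ Fˣ`. -/
def Level.unitsCoe (L : Level S) : L.units.V →ₗ[ℤ] unitsQbar.V :=
  Submodule.subtype (Representation.invariants (unitsQbar.ρ.comp L.U.subtype))

/-- The underlying element of `ℚ̄_qˣ` (additively written) of `x ∈ F_qˣ`. -/
def Level.locCoe (L : Level S) (q : Nat.Primes) : (L.locUnits q).V →ₗ[ℤ] (unitsQpbar q).V :=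
  Submodule.subtype (Representation.invariants ((unitsQpbar q).ρ.comp (L.V q).subtype))

lemma Level.unitsCoe_injective (L : Level S) : Function.Injective L.unitsCoe :=
  Subtype.val_injective

lemma Level.locCoe_injective (L : Level S) (q : Nat.Primes) : Function.Injective (L.locCoe q) :=
  Subtype.val_injective

lemma Level.unitsCoe_fixed (L : Level S) (x : L.units.V) (g : GQ) (hg : g ∈ L.U) :
    unitsQbar.ρ g (L.unitsCoe x) = L.unitsCoe x := x.2 ⟨g, hg⟩

lemma Level.locCoe_fixed (L : Level S) (q : Nat.Primes) (x : (L.locUnits q).V) (g : GQp q)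
    (hg : g ∈ L.V q) : (unitsQpbar q).ρ g (L.locCoe q x) = L.locCoe q x := x.2 ⟨g, hg⟩

/-- Constructor for elements of `Fˣ`. -/
def Level.unitsMk (L : Level S) (a : unitsQbar.V) (ha : ∀ g ∈ L.U, unitsQbar.ρ g a = a) :
    L.units.V := ⟨a, fun g => ha g.1 g.2⟩

/-- Constructor for elements of `F_qˣ`. -/
def Level.locMk (L : Level S) (q : Nat.Primes) (a : (unitsQpbar q).V)
    (ha : ∀ g ∈ L.V q, (unitsQpbar q).ρ g a = a) : (L.locUnits q).V := ⟨a, fun g => ha g.1 g.2⟩

@[simp] lemma Level.unitsCoe_mk (L : Level S) (a : unitsQbar.V) (ha) :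
    L.unitsCoe (L.unitsMk a ha) = a := rfl

@[simp] lemma Level.locCoe_mk (L : Level S) (q : Nat.Primes) (a : (unitsQpbar q).V) (ha) :
    L.locCoe q (L.locMk q a ha) = a := rfl

lemma Level.units_ρ_coe (L : Level S) (g : GQ) (x : L.units.V) :
    L.unitsCoe (L.units.ρ (QuotientGroup.mk g) x) = unitsQbar.ρ g (L.unitsCoe x) := rfl

lemma Level.locUnits_ρ_coe (L : Level S) (q : Nat.Primes) (g : GQp q) (x : (L.locUnits q).V) :
    L.locCoe q ((L.locUnits q).ρ (QuotientGroup.mk g) x) = (unitsQpbar q).ρ g (L.locCoe q x) := rfl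

/-- The embedding `Fˣ → F_qˣ` (linear). -/
def Level.embFun (L : Level S) (q : Nat.Primes) : L.units.V →ₗ[ℤ] (L.locUnits q).V where
  toFun x := L.locMk q (embQbar q (L.unitsCoe x)) (fun g hg => by
    rw [← embQbar_equivariant, L.unitsCoe_fixed x _ hg])
  map_add' x y := by
    apply L.locCoe_injective q
    simp [map_add]
  map_smul' c x := by
    apply L.locCoe_injective q
    simp [map_smul]

@[simp] lemma Level.locCoe_embFun (L : Level S) (q : Nat.Primes) (x : L.units.V) :
    L.locCoe q (L.embFun q x) = embQbar q (L.unitsCoe x) := rfl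

/-- The embedding `Fˣ → F_qˣ` as a morphism of `Gal(F_q/ℚ_q)`-modules. -/
def Level.emb (L : Level S) (q : Nat.Primes) : Rep.res (L.decHom q) L.units ⟶ L.locUnits q :=
  Rep.ofHom ⟨L.embFun q, fun g => by
    induction g using QuotientGroup.induction_on with
    | H g =>
      refine LinearMap.ext fun x => ?_
      apply L.locCoe_injective q
      exact embQbar_equivariant q g (L.unitsCoe x)⟩

/-- The inclusion `Fˣ ⊂ F'ˣ` (linear). -/
def Level.inclUnits {L L' : Level S} (h : L ≤ L') : L.units.V →ₗ[ℤ] L'.units.V where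
  toFun x := L'.unitsMk (L.unitsCoe x) (fun g hg => L.unitsCoe_fixed x g (Level.U_anti h hg))
  map_add' _ _ := rfl
  map_smul' _ _ := rfl

@[simp] lemma Level.unitsCoe_inclUnits {L L' : Level S} (h : L ≤ L') (x : L.units.V) :
    L'.unitsCoe (Level.inclUnits h x) = L.unitsCoe x := rfl

/-- The inclusion `Fˣ ⊂ F'ˣ` as a morphism of `Gal(F'/ℚ)`-modules. -/
def Level.trUnits {L L' : Level S} (h : L ≤ L') : Rep.res (Level.proj h) L.units ⟶ L'.units :=
  Rep.ofHom ⟨Level.inclUnits h, fun g => by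
    induction g using QuotientGroup.induction_on with
    | H g => exact LinearMap.ext fun x => rfl⟩

/-- The inclusion `F_qˣ ⊂ F'_qˣ` (linear). -/
def Level.inclLoc {L L' : Level S} (h : L ≤ L') (q : Nat.Primes) :
    (L.locUnits q).V →ₗ[ℤ] (L'.locUnits q).V where
  toFun x := L'.locMk q (L.locCoe q x) (fun g hg => L.locCoe_fixed q x g (Level.V_anti h q hg))
  map_add' _ _ := rfl
  map_smul' _ _ := rfl

@[simp] lemma Level.locCoe_inclLoc {L L' : Level S} (h : L ≤ L') (q : Nat.Primes)
    (x : (L.locUnits q).V) : L'.locCoe q (Level.inclLoc h q x) = L.locCoe q x := rfl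

/-- The inclusion `F_qˣ ⊂ F'_qˣ` as a morphism of `Gal(F'_q/ℚ_q)`-modules. -/
def Level.trLoc {L L' : Level S} (h : L ≤ L') (q : Nat.Primes) :
    Rep.res (Level.projDec h q) (L.locUnits q) ⟶ L'.locUnits q :=
  Rep.ofHom ⟨Level.inclLoc h q, fun g => by
    induction g using QuotientGroup.induction_on with
    | H g => exact LinearMap.ext fun x => rfl⟩

/-- The diagonal embedding `Fˣ → J_q(F) = Coind F_qˣ`, `x ↦ (g ↦ emb (g x))`. -/
def Level.diagFun (L : Level S) (q : Nat.Primes) : L.units.V →ₗ[ℤ] (L.J q).V where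
  toFun x := ⟨fun g => L.embFun q (L.units.ρ g x), fun d g => by
    have := Rep.hom_comm_apply (L.emb q) d (L.units.ρ g x)
    show L.embFun q (L.units.ρ (L.decHom q d * g) x) = _
    rw [map_mul]
    exact this⟩
  map_add' x y := by
    apply Subtype.ext
    funext g
    show L.embFun q (L.units.ρ g (x + y)) = L.embFun q (L.units.ρ g x) + L.embFun q (L.units.ρ g y)
    rw [map_add, map_add]
  map_smul' c x := by
    apply Subtype.ext
    funext g
    show L.embFun q (L.units.ρ g (c • x)) = c • L.embFun q (L.units.ρ g x)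
    rw [map_smul, map_smul]

/-- The diagonal embedding `Fˣ → J_q(F)` as a morphism of `Gal(F/ℚ)`-modules. -/
def Level.diag (L : Level S) (q : Nat.Primes) : L.units ⟶ L.J q :=
  Rep.ofHom ⟨L.diagFun q, fun g => by
    refine LinearMap.ext fun x => ?_
    apply Subtype.ext
    funext g'
    show L.embFun q (L.units.ρ g' (L.units.ρ g x)) = L.embFun q (L.units.ρ (g' * g) x)
    rw [map_mul]
    rfl⟩

/-- Evaluation of an element of `J_q(F) = Coind F_qˣ` at `g ∈ Gal(F/ℚ)`. -/
def Level.Jeval (L : Level S) (q : Nat.Primes) (f : (L.J q).V) (g : L.Gal) : (L.locUnits q).V :=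
  f.1 g

lemma Level.Jeval_mul (L : Level S) (q : Nat.Primes) (f : (L.J q).V) (d : L.Dec q) (g : L.Gal) :
    L.Jeval q f (L.decHom q d * g) = (L.locUnits q).ρ d (L.Jeval q f g) := f.2 d g

lemma Level.J_ext (L : Level S) (q : Nat.Primes) {f f' : (L.J q).V}
    (h : ∀ g, L.Jeval q f g = L.Jeval q f' g) : f = f' := Subtype.ext (funext h)

lemma Level.Jeval_ρ (L : Level S) (q : Nat.Primes) (f : (L.J q).V) (g g' : L.Gal) :
    L.Jeval q ((L.J q).ρ g f) g' = L.Jeval q f (g' * g) := rfl

@[simp] lemma Level.Jeval_diag (L : Level S) (q : Nat.Primes) (x : L.units.V) (g : L.Gal) :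
    L.Jeval q ((L.diag q).hom x) g = L.embFun q (L.units.ρ g x) := rfl

/-- The inclusion `J_q(F) → J_q(F')` (linear): `f ↦ (g' ↦ f (proj g'))`. -/
def Level.inclJ {L L' : Level S} (h : L ≤ L') (q : Nat.Primes) : (L.J q).V →ₗ[ℤ] (L'.J q).V where
  toFun f := ⟨fun g' => Level.inclLoc h q (L.Jeval q f (Level.proj h g')), fun d g' => by
    show Level.inclLoc h q (L.Jeval q f (Level.proj h (L'.decHom q d * g'))) = _
    rw [map_mul, Level.proj_decHom, L.Jeval_mul]
    exact Rep.hom_comm_apply (Level.trLoc h q) d _⟩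
  map_add' _ _ := rfl
  map_smul' _ _ := rfl

@[simp] lemma Level.Jeval_inclJ {L L' : Level S} (h : L ≤ L') (q : Nat.Primes) (f : (L.J q).V)
    (g' : L'.Gal) :
    L'.Jeval q (Level.inclJ h q f) g' = Level.inclLoc h q (L.Jeval q f (Level.proj h g')) := rfl

/-- The inclusion `J_q(F) → J_q(F')` as a morphism of `Gal(F'/ℚ)`-modules. -/
def Level.trJ {L L' : Level S} (h : L ≤ L') (q : Nat.Primes) :
    Rep.res (Level.proj h) (L.J q) ⟶ L'.J q :=
  Rep.ofHom ⟨Level.inclJ h q, fun g => by
    refine LinearMap.ext fun f => ?_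
    apply L'.J_ext q
    intro g'
    show Level.inclLoc h q (L.Jeval q ((L.J q).ρ (Level.proj h g) f) (Level.proj h g')) =
      Level.inclLoc h q (L.Jeval q f (Level.proj h (g' * g)))
    rw [L.Jeval_ρ, map_mul]⟩

/-- A level for `S` is a level for every `S' ⊇ S`. -/
def Level.ofLE {S' : Finset Nat.Primes} (hS : S ⊆ S') (L : Level S) : Level S' where
  F := L.F
  unram := L.unram.mono hS
  normalU := L.normalU

@[simp] lemma Level.ofLE_F {S' : Finset Nat.Primes} (hS : S ⊆ S') (L : Level S) :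
    (Level.ofLE hS L).F = L.F := rfl

end

end Fermat.Agent.S55.Tow
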