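/-
S55 moonshot — FROZEN INTERFACE between the arithmetic layers (G, L) and the engine E1 (layer D).
Chief architect: helper55.  Blueprint: coord/S55-E1.md §1.  NO sorry.

`TowerDatum S` : for every level `F` a `Gal(F/ℚ)`-module `C(F)` (think: `S`-idèle class group
`(J_S(F) × Div^S(F)) / Fˣ`, no archimedean part), a class `γ_F ∈ H²(Gal(F/ℚ), C(F))`, maps
`j_q : J_q(F) → C(F)` and transition maps `C(F) → C(F')`.
`TowerDatum.IsGood p` : the properties GD1, GD3–GD8 consumed by the engine.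
`GlobalSpec S p : ∃ D : TowerDatum S, D.IsGood p`  — the TARGET of layer G.
`LocalSpec p`, `SUnitsDivSpec S p`, `H1FiniteSpec` — the other arithmetic inputs (GD2, LH90, LDIV, GD9,
GD10).  Only `p`-primary information is required; any normalisation of invariants is fine.
-/
import Fermat.Agent.S55.Spec.Tower3
import Fermat.Agent.S55.E1.SpecAlg

set_option autoImplicit false

open CategoryTheory

namespace Fermat.Agent.S55.Tow

noncomputable section

/-- The data of a tower datum. -/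
structure TowerDatum (S : Finset Nat.Primes) where
  /-- the class module `C(F)` -/
  C : ∀ L : Level S, Rep.{0} ℤ L.Gal
  /-- the fundamental class (any generator at `p`) -/
  γ : ∀ L : Level S, groupCohomology (C L) 2
  /-- `j_q : J_q(F) → C(F)` (only `q ∈ S` is used) -/
  j : ∀ (L : Level S) (q : Nat.Primes), L.J q ⟶ C L
  /-- the transition map `C(F) → C(F')` for `F ≤ F'` -/
  tr : ∀ {L L' : Level S} (h : L ≤ L'), Rep.res (Level.proj h) (C L) ⟶ C L'

namespace TowerDatum

variable {S : Finset Nat.Primes} (D : TowerDatum S)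

/-- `c ∈ C(F)` lies in the image of `J(F) = ⊕_{q ∈ S} J_q(F)`. -/
def IsLocalSum (L : Level S) (c : (D.C L).V) : Prop :=
  ∃ x : ∀ q : S, (L.J q.1).V, c = ∑ q : S, (D.j L q.1).hom (x q)

/-- The inflation map `H²(Gal(F/ℚ), C(F)) → H²(Gal(F'/ℚ), C(F'))`. -/
def inf {L L' : Level S} (h : L ≤ L') :
    groupCohomology (D.C L) 2 →ₗ[ℤ] groupCohomology (D.C L') 2 :=
  (groupCohomology.map (Level.proj h) (D.tr h) 2).hom

/-- The properties of a tower datum consumed by the engine E1 (blueprint §1). -/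
structure IsGood (p : ℕ) : Prop where
  /-- GD1: `(C(F), γ_F)` is a class module at `p`. -/
  gd1 : ∀ L : Level S, E1.IsClassModuleAt p (D.C L) (D.γ L)
  /-- GD3: `(j_q)_* : H²(G_F, J_q(F)) → H²(G_F, C(F))` is injective on `p`-torsion. -/
  gd3 : ∀ (L : Level S) (q : Nat.Primes), q ∈ S → ∀ y : groupCohomology (L.J q) 2,
    p • y = 0 → (T.coeffMap (D.j L q) 2).hom y = 0 → y = 0
  /-- GD4: the kernel of `J(F) → C(F)` is the diagonal image of the `S`-units. -/
  gd4 : ∀ (L : Level S) (x : ∀ q : S, (L.J q.1).V),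
    ∑ q : S, (D.j L q.1).hom (x q) = 0 ↔
      ∃ e : L.units.V, L.IsSUnit e ∧ ∀ q : S, x q = (L.diag q.1).hom e
  /-- GD5: capitulation of the `p`-part of `C(F)/im J(F)`. -/
  gd5 : ∀ (L : Level S) (c : (D.C L).V) (a : ℕ), D.IsLocalSum L (p ^ a • c) →
    ∃ (L' : Level S) (h : L ≤ L'), D.IsLocalSum L' ((D.tr h).hom c)
  /-- GD6: existence theorem mod `p`: norms from high levels are `p`-th multiples. -/
  gd6 : ∀ L₀ : Level S, ∃ L₁ : Level S, L₀ ≤ L₁ ∧ ∀ (L : Level S) (h : L₀ ≤ L), L₁ ≤ L →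
    @E1.NormInP p L.Gal _ (Level.relGal h) (Fintype.ofFinite _) (D.C L)
  /-- GD7a: `tr` is compatible with `j` and the inclusions `J_q(F) → J_q(F')`. -/
  gd7a : ∀ {L L' : Level S} (h : L ≤ L') (q : Nat.Primes) (x : (L.J q).V),
    (D.tr h).hom ((D.j L q).hom x) = (D.j L' q).hom ((Level.trJ h q).hom x)
  /-- GD7b: `tr` is transitive. -/
  gd7b : ∀ {L L' L'' : Level S} (h : L ≤ L') (h' : L' ≤ L'') (c : (D.C L).V),
    (D.tr h').hom ((D.tr h).hom c) = (D.tr (h.trans h')).hom c
  /-- GD8: inflation `H²(G_F, C(F)) → H²(G_{F'}, C(F'))` is injective on `p`-torsion. -/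
  gd8 : ∀ {L L' : Level S} (h : L ≤ L') (z : groupCohomology (D.C L) 2),
    p • z = 0 → D.inf h z = 0 → z = 0

end TowerDatum

/-- **TARGET OF LAYER G**: a good tower datum exists. -/
def GlobalSpec (S : Finset Nat.Primes) (p : ℕ) : Prop :=
  ∃ D : TowerDatum S, D.IsGood p

/-- **TARGET OF LAYER L** (GD2, LH90, LDIV), for all finite Galois `F/ℚ` (levels of any `S'`):
* `F_qˣ` is a class module at `p` for `Gal(F_q/ℚ_q)`;
* Hilbert 90 for `F'_q/F_q`;
* every element of `F_qˣ` is a `p`-th power in `F'_qˣ` for some finite Galois `F' ≥ F`. -/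
def LocalSpec (p : ℕ) : Prop :=
  (∀ (S' : Finset Nat.Primes) (L : Level S') (q : Nat.Primes),
    ∃ γ : groupCohomology (L.locUnits q) 2, E1.IsClassModuleAt p (L.locUnits q) γ) ∧
  (∀ (S' : Finset Nat.Primes) (L L' : Level S') (h : L ≤ L') (q : Nat.Primes),
    Limits.IsZero (groupCohomology (T.resSub (L'.locUnits q) (Level.projDec h q).ker) 1)) ∧
  (∀ (S' : Finset Nat.Primes) (L : Level S') (q : Nat.Primes) (x : (L.locUnits q).V),
    ∃ (S'' : Finset Nat.Primes) (hS : S' ⊆ S'') (L' : Level S'') (h : Level.ofLE hS L ≤ L')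
      (y : (L'.locUnits q).V), p • y = (Level.trLoc h q).hom x)

/-- **GD9**: the `S`-units are `p`-divisible in the tower, and `μ_p` lives at some level. -/
def SUnitsDivSpec (S : Finset Nat.Primes) (p : ℕ) : Prop :=
  (∀ (L : Level S) (e : L.units.V), L.IsSUnit e →
    ∃ (L' : Level S) (h : L ≤ L') (e' : L'.units.V), L'.IsSUnit e' ∧
      p • e' = (Level.trUnits h).hom e) ∧
  (∃ L₀ : Level S, ∀ ζ : Qbar, ζ ^ p = 1 → ζ ∈ L₀.F)

/-- **GD10**: finiteness of `H¹_S` (Prelude `continuousH1S`) for finite `F_p`-representations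
factoring through a level. -/
def H1FiniteSpec (S : Finset Nat.Primes) (p : ℕ) [Fact p.Prime] : Prop :=
  ∀ (N : Rep.{0} (ZMod p) GQ) [FiniteDimensional (ZMod p) N],
    (∃ L : Level S, ∀ s ∈ L.U, N.ρ s = 1) →
    Module.Finite (ZMod p) (groupCohomology.continuousH1S S N)

end

end Fermat.Agent.S55.Tow
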