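/-
S55 moonshot — interface G/L → D, version 2 (WEAKER for producers, this is what the engine
consumes): the arithmetic properties GD1, GD3, GD6, GD8 are only required for levels containing
`μ_p` (as proposed by helper955, G-ADAPTER).  Chief architect: helper55.  NO sorry.

`GlobalSpecMu S p` is the FINAL target of layer G;  `GlobalSpec S p → GlobalSpecMu S p`.
-/
import Fermat.Agent.S55.Spec.Datum

set_option autoImplicit false

open CategoryTheory

namespace Fermat.Agent.S55.Tow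

noncomputable section

variable {S : Finset Nat.Primes}

/-- `μ_p ⊂ F`. -/
def Level.HasMu (p : ℕ) (L : Level S) : Prop := ∃ ζ : Qbar, ζ ∈ L.F ∧ IsPrimitiveRoot ζ p

lemma Level.HasMu.mono {p : ℕ} {L L' : Level S} (h : L ≤ L') (hL : L.HasMu p) : L'.HasMu p := by
  obtain ⟨ζ, hζ, hprim⟩ := hL
  exact ⟨ζ, h hζ, hprim⟩

namespace TowerDatum

variable (D : TowerDatum S)

/-- The properties of a tower datum consumed by the engine E1, arithmetic ones only above `μ_p`. -/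
structure IsGoodMu (p : ℕ) : Prop where
  /-- GD1: `(C(F), γ_F)` is a class module at `p`, for `F ⊇ μ_p`. -/
  gd1 : ∀ L : Level S, L.HasMu p → E1.IsClassModuleAt p (D.C L) (D.γ L)
  /-- GD3: `(j_q)_*` is injective on `p`-torsion of `H²(G_F, J_q(F))`, for `F ⊇ μ_p`. -/
  gd3 : ∀ (L : Level S), L.HasMu p → ∀ (q : Nat.Primes), q ∈ S →
    ∀ y : groupCohomology (L.J q) 2,
      p • y = 0 → (T.coeffMap (D.j L q) 2).hom y = 0 → y = 0
  /-- GD4: the kernel of `J(F) → C(F)` is the diagonal image of the `S`-units. -/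
  gd4 : ∀ (L : Level S) (x : ∀ q : S, (L.J q.1).V),
    ∑ q : S, (D.j L q.1).hom (x q) = 0 ↔
      ∃ e : L.units.V, L.IsSUnit e ∧ ∀ q : S, x q = (L.diag q.1).hom e
  /-- GD5: capitulation of the `p`-part of `C(F)/im J(F)`. -/
  gd5 : ∀ (L : Level S) (c : (D.C L).V) (a : ℕ), D.IsLocalSum L (p ^ a • c) →
    ∃ (L' : Level S) (h : L ≤ L'), D.IsLocalSum L' ((D.tr h).hom c)
  /-- GD6: existence theorem mod `p` over base levels `F₀ ⊇ μ_p`. -/
  gd6 : ∀ L₀ : Level S, L₀.HasMu p → ∃ L₁ : Level S, L₀ ≤ L₁ ∧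
    ∀ (L : Level S) (h : L₀ ≤ L), L₁ ≤ L →
      @E1.NormInP p L.Gal _ (Level.relGal h) (Fintype.ofFinite _) (D.C L)
  /-- GD7a: `tr` is compatible with `j` and the inclusions `J_q(F) → J_q(F')`. -/
  gd7a : ∀ {L L' : Level S} (h : L ≤ L') (q : Nat.Primes), q ∈ S → ∀ (x : (L.J q).V),
    (D.tr h).hom ((D.j L q).hom x) = (D.j L' q).hom ((Level.trJ h q).hom x)
  /-- GD7b: `tr` is transitive. -/
  gd7b : ∀ {L L' L'' : Level S} (h : L ≤ L') (h' : L' ≤ L'') (c : (D.C L).V),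
    (D.tr h').hom ((D.tr h).hom c) = (D.tr (h.trans h')).hom c
  /-- GD8: inflation is injective on `p`-torsion of `H²(G_F, C(F))`, for `F ⊇ μ_p`. -/
  gd8 : ∀ {L L' : Level S} (h : L ≤ L'), L.HasMu p → ∀ (z : groupCohomology (D.C L) 2),
    p • z = 0 → D.inf h z = 0 → z = 0

theorem IsGood.isGoodMu {p : ℕ} (h : D.IsGood p) : D.IsGoodMu p where
  gd1 L _ := h.gd1 L
  gd3 L _ q hq y := h.gd3 L q hq y
  gd4 := h.gd4
  gd5 := h.gd5
  gd6 L₀ _ := h.gd6 L₀
  gd7a hLL q _ x := h.gd7a hLL q x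
  gd7b := h.gd7b
  gd8 hLL _ z := h.gd8 hLL z

end TowerDatum

/-- **FINAL TARGET OF LAYER G** (weak form): a tower datum which is good above `μ_p`. -/
def GlobalSpecMu (S : Finset Nat.Primes) (p : ℕ) : Prop :=
  ∃ D : TowerDatum S, D.IsGoodMu p

theorem GlobalSpec.globalSpecMu {p : ℕ} (h : GlobalSpec S p) : GlobalSpecMu S p := by
  obtain ⟨D, hD⟩ := h
  exact ⟨D, hD.isGoodMu⟩

end

end Fermat.Agent.S55.Tow
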