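/-
S55 moonshot — interface G/L → D, version 3 (FINAL): `IsGoodMu` (Spec/Datum2.lean) PLUS
GD5b: `C(F) / im J(F)` (the `S`-class group of `F`) is TORSION.  Chief architect: helper55.  NO sorry.

WHY (found while checking LIM2 "capitulation, cokernel part", coord/S55-E1.md §5): to push
`f ∈ Hom_G(R, C(F))` into `Hom(R, C'(F'))`, `C' = im J`, one multiplies `f` by `w ≡ 1 (p)`,
`w ≡ 0 (m')` where `m' p^a` kills the classes of the values of `f` in `C/C'`; then GD5 applies.
This needs that every element of `C(F)` has a nonzero multiple in `im J(F)`.  In the intended model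
`C/C' = Cl_S(F)`, which is finite (Mathlib: finiteness of the class group).

`GlobalSpecFin S p` is the FINAL target of layer G.   `GlobalSpec → GlobalSpecMu` is unchanged;
`GlobalSpecFin → GlobalSpecMu`.
-/
import Fermat.Agent.S55.Spec.Datum2

set_option autoImplicit false

open CategoryTheory

namespace Fermat.Agent.S55.Tow

noncomputable section

variable {S : Finset Nat.Primes}

namespace TowerDatum

variable (D : TowerDatum S)

/-- GD5b: every element of `C(F)` has a nonzero multiple in the image of `J(F) = ⊕_{q ∈ S} J_q(F)`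
(`C(F)/im J(F)` is the `S`-class group, a finite group). -/
def IsTorsModLocal : Prop :=
  ∀ (L : Level S) (c : (D.C L).V), ∃ m : ℕ, 0 < m ∧ D.IsLocalSum L (m • c)

/-- The properties of a tower datum consumed by the engine E1, final form. -/
structure IsGoodFin (p : ℕ) : Prop where
  /-- GD1, GD3–GD8 (arithmetic ones above `μ_p`) -/
  good : D.IsGoodMu p
  /-- GD5b: `C(F)/im J(F)` is torsion -/
  gd5b : D.IsTorsModLocal

end TowerDatum

/-- **FINAL TARGET OF LAYER G**: a tower datum which is good above `μ_p` and whose
`C(F)/im J(F)` are torsion. -/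
def GlobalSpecFin (S : Finset Nat.Primes) (p : ℕ) : Prop :=
  ∃ D : TowerDatum S, D.IsGoodFin p

theorem GlobalSpecFin.globalSpecMu {p : ℕ} (h : GlobalSpecFin S p) : GlobalSpecMu S p := by
  obtain ⟨D, hD⟩ := h
  exact ⟨D, hD.good⟩

end

end Fermat.Agent.S55.Tow
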